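import Mathlib
import Fermat.Agent.H10.FF.Points
import Fermat.Agent.H10.FF.Antipode
import Fermat.Agent.H34.FF.SubModel

/-!
# P-FF, block (F6) of the FF-F blueprint : Hopf models pass to products and powers (helper57)

* `prod_concrete` : the product of two concrete Hopf orders (the subalgebra of functions on
  `Z₁ × Z₂` generated by the pull-backs of the two orders) is a concrete Hopf order;
* `productModel : ProductModelStatement` : `HasHopfModel ℓ Z₁ → HasHopfModel ℓ Z₂ →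
  HasHopfModel ℓ (Z₁ × Z₂)`;
* `trivialModel` : a subsingleton group has a Hopf model;
* `powerModel : PowerModelStatement` : `HasHopfModel ℓ Z → ∀ r, HasHopfModel ℓ (Fin r → Z)`.
-/

set_option autoImplicit false
set_option linter.unusedSectionVars false
set_option linter.style.haveILetI false

noncomputable section

namespace Fermat.Agent.H57.FF

open Fermat.Agent.H10.FF

local notation "Qb" => AlgebraicClosure ℚ

/-- **FF-E (product)** Hopf models pass to products. -/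
def ProductModelStatement : Prop :=
  ∀ (ℓ : ℕ) [Fact ℓ.Prime] (Z₁ Z₂ : Type) [AddCommGroup Z₁] [Finite Z₁] [MulAction GQ Z₁]
    [AddCommGroup Z₂] [Finite Z₂] [MulAction GQ Z₂],
    HasHopfModel ℓ Z₁ (fun (σ : GQ) (z : Z₁) => σ • z) →
    HasHopfModel ℓ Z₂ (fun (σ : GQ) (z : Z₂) => σ • z) →
    HasHopfModel ℓ (Z₁ × Z₂) (fun (σ : GQ) (z : Z₁ × Z₂) => σ • z)

/-- **FF-E (powers)** Hopf models pass to finite powers. -/
def PowerModelStatement : Prop :=
  ∀ (ℓ : ℕ) [Fact ℓ.Prime] (Z : Type) [AddCommGroup Z] [Finite Z] [MulAction GQ Z],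
    HasHopfModel ℓ Z (fun (σ : GQ) (z : Z) => σ • z) →
    ∀ r : ℕ, HasHopfModel ℓ (Fin r → Z) (fun (σ : GQ) (z : Fin r → Z) => σ • z)

section orders

variable {ℓ : ℕ} {Z : Type} [AddCommGroup Z]

/-- The Galois group fixes the constants of `ℤ_(ℓ)`. -/
theorem galois_algebraMap_zl (σ : GQ) (r : Zl ℓ) :
    σ (algebraMap (Zl ℓ) Qb r) = algebraMap (Zl ℓ) Qb r :=
  ((σ : Qb →ₐ[ℚ] Qb).restrictScalars (Zl ℓ)).commutes r

/-- The equivariant functions, as a subalgebra. -/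
def equivariantSub (ℓ : ℕ) (act : GQ → Z → Z) : Subalgebra (Zl ℓ) (Z → Qb) where
  carrier := {h | ∀ (σ : GQ) (z : Z), h (act σ z) = σ (h z)}
  mul_mem' := by
    intro a b ha hb σ z
    show a (act σ z) * b (act σ z) = σ (a z * b z)
    rw [ha σ z, hb σ z, map_mul]
  add_mem' := by
    intro a b ha hb σ z
    show a (act σ z) + b (act σ z) = σ (a z + b z)
    rw [ha σ z, hb σ z, map_add]
  algebraMap_mem' := by
    intro r σ z
    show algebraMap (Zl ℓ) Qb r = σ (algebraMap (Zl ℓ) Qb r)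
    rw [galois_algebraMap_zl]

/-- Decompositions `h (z + z') = ∑ i, a i z * b i z'` indexed by a finite type can be indexed by
`Fin n`. -/
theorem comul_fin_of_fintype (P : Subalgebra (Zl ℓ) (Z → Qb)) {ι : Type} [Fintype ι]
    (h : Z → Qb) (a b : ι → Z → Qb) (ha : ∀ i, a i ∈ P) (hb : ∀ i, b i ∈ P)
    (hab : ∀ z z' : Z, h (z + z') = ∑ i, a i z * b i z') :
    ∃ (n : ℕ) (a' b' : Fin n → Z → Qb),
      (∀ i, a' i ∈ P) ∧ (∀ i, b' i ∈ P) ∧ ∀ z z' : Z, h (z + z') = ∑ i, a' i z * b' i z' := by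
  classical
  refine ⟨Fintype.card ι, fun i => a ((Fintype.equivFin ι).symm i),
    fun i => b ((Fintype.equivFin ι).symm i), fun i => ha _, fun i => hb _, fun z z' => ?_⟩
  rw [hab z z']
  exact (Equiv.sum_comp (Fintype.equivFin ι).symm (fun i => a i z * b i z')).symm

/-- The functions whose comultiplication decomposes inside `P`, as a subalgebra. -/
def comulSub (P : Subalgebra (Zl ℓ) (Z → Qb)) : Subalgebra (Zl ℓ) (Z → Qb) where
  carrier := {h | ∃ (n : ℕ) (a b : Fin n → Z → Qb),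
      (∀ i, a i ∈ P) ∧ (∀ i, b i ∈ P) ∧ ∀ z z' : Z, h (z + z') = ∑ i, a i z * b i z'}
  mul_mem' := by
    rintro f g ⟨n, a, b, ha, hb, hab⟩ ⟨m, c, d, hc, hd, hcd⟩
    refine comul_fin_of_fintype P (f * g) (fun i : Fin n × Fin m => a i.1 * c i.2)
      (fun i : Fin n × Fin m => b i.1 * d i.2) (fun i => P.mul_mem (ha _) (hc _))
      (fun i => P.mul_mem (hb _) (hd _)) (fun z z' => ?_)
    show f (z + z') * g (z + z') = _
    rw [hab, hcd, Finset.sum_mul_sum, Fintype.sum_prod_type]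
    refine Finset.sum_congr rfl fun i _ => Finset.sum_congr rfl fun j _ => ?_
    show _ = a i z * c j z * (b i z' * d j z')
    ring
  add_mem' := by
    rintro f g ⟨n, a, b, ha, hb, hab⟩ ⟨m, c, d, hc, hd, hcd⟩
    refine comul_fin_of_fintype P (f + g) (Sum.elim a c) (Sum.elim b d)
      (fun i => by cases i <;> simp [ha, hc]) (fun i => by cases i <;> simp [hb, hd])
      (fun z z' => ?_)
    show f (z + z') + g (z + z') = _
    rw [hab, hcd, Fintype.sum_sum_type]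
    rfl
  algebraMap_mem' := by
    intro r
    refine ⟨1, fun _ => algebraMap (Zl ℓ) (Z → Qb) r, fun _ => 1, fun _ => P.algebraMap_mem r,
      fun _ => P.one_mem, fun z z' => ?_⟩
    simp

variable {Z₁ Z₂ : Type} [AddCommGroup Z₁] [AddCommGroup Z₂]

/-- The product of two orders: the subalgebra generated by the two pull-backs. -/
def prodOrder (H₁ : Subalgebra (Zl ℓ) (Z₁ → Qb)) (H₂ : Subalgebra (Zl ℓ) (Z₂ → Qb)) :
    Subalgebra (Zl ℓ) (Z₁ × Z₂ → Qb) :=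
  H₁.map (ffPull (Zl ℓ) (Prod.fst : Z₁ × Z₂ → Z₁)) ⊔
    H₂.map (ffPull (Zl ℓ) (Prod.snd : Z₁ × Z₂ → Z₂))

theorem fst_mem_prodOrder (H₁ : Subalgebra (Zl ℓ) (Z₁ → Qb)) (H₂ : Subalgebra (Zl ℓ) (Z₂ → Qb))
    {h : Z₁ → Qb} (hh : h ∈ H₁) : (fun z : Z₁ × Z₂ => h z.1) ∈ prodOrder H₁ H₂ :=
  (le_sup_left : _ ≤ prodOrder H₁ H₂) ⟨h, hh, rfl⟩

theorem snd_mem_prodOrder (H₁ : Subalgebra (Zl ℓ) (Z₁ → Qb)) (H₂ : Subalgebra (Zl ℓ) (Z₂ → Qb))
    {h : Z₂ → Qb} (hh : h ∈ H₂) : (fun z : Z₁ × Z₂ => h z.2) ∈ prodOrder H₁ H₂ :=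
  (le_sup_right : _ ≤ prodOrder H₁ H₂) ⟨h, hh, rfl⟩

/-- **The product of two concrete Hopf orders is a concrete Hopf order.** -/
theorem prod_concrete [Finite Z₁] [Finite Z₂] (act₁ : GQ → Z₁ → Z₁) (act₂ : GQ → Z₂ → Z₂)
    {H₁ : Subalgebra (Zl ℓ) (Z₁ → Qb)} {H₂ : Subalgebra (Zl ℓ) (Z₂ → Qb)}
    (h₁ : IsConcreteHopfOrder ℓ act₁ H₁) (h₂ : IsConcreteHopfOrder ℓ act₂ H₂) :
    IsConcreteHopfOrder ℓ (fun (σ : GQ) (z : Z₁ × Z₂) => (act₁ σ z.1, act₂ σ z.2))
      (prodOrder H₁ H₂) := by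
  refine IsConcreteHopfOrder.of_comul _ _ ?_ ?_ ?_ ?_
  · -- equivariance
    have hle : prodOrder H₁ H₂ ≤
        equivariantSub ℓ (fun (σ : GQ) (z : Z₁ × Z₂) => (act₁ σ z.1, act₂ σ z.2)) := by
      refine sup_le ?_ ?_
      · rintro _ ⟨h, hh, rfl⟩ σ z
        exact h₁.equivariant h hh σ z.1
      · rintro _ ⟨h, hh, rfl⟩ σ z
        exact h₂.equivariant h hh σ z.2
    exact fun h hh => hle hh
  · -- finiteness
    have hfg1 : (Subalgebra.toSubmodule
        (H₁.map (ffPull (Zl ℓ) (Prod.fst : Z₁ × Z₂ → Z₁)))).FG := by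
      have : Subalgebra.toSubmodule (H₁.map (ffPull (Zl ℓ) (Prod.fst : Z₁ × Z₂ → Z₁))) =
          (Subalgebra.toSubmodule H₁).map
            (ffPull (Zl ℓ) (Prod.fst : Z₁ × Z₂ → Z₁)).toLinearMap := rfl
      rw [this]
      exact h₁.finite.map _
    have hfg2 : (Subalgebra.toSubmodule
        (H₂.map (ffPull (Zl ℓ) (Prod.snd : Z₁ × Z₂ → Z₂)))).FG := by
      have : Subalgebra.toSubmodule (H₂.map (ffPull (Zl ℓ) (Prod.snd : Z₁ × Z₂ → Z₂))) =
          (Subalgebra.toSubmodule H₂).map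
            (ffPull (Zl ℓ) (Prod.snd : Z₁ × Z₂ → Z₂)).toLinearMap := rfl
      rw [this]
      exact h₂.finite.map _
    haveI i1 : Module.Finite (Zl ℓ) ↥(H₁.map (ffPull (Zl ℓ) (Prod.fst : Z₁ × Z₂ → Z₁))) :=
      Module.Finite.iff_fg.mpr hfg1
    haveI i2 : Module.Finite (Zl ℓ) ↥(H₂.map (ffPull (Zl ℓ) (Prod.snd : Z₁ × Z₂ → Z₂))) :=
      Module.Finite.iff_fg.mpr hfg2
    have h3 : Module.Finite (Zl ℓ) ↥(prodOrder H₁ H₂) := Subalgebra.finite_sup _ _
    exact Module.Finite.iff_fg.mp h3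
  · -- separation
    rintro ⟨z₁, z₂⟩ ⟨z₁', z₂'⟩ hne
    by_cases h1 : z₁ = z₁'
    · have h2 : z₂ ≠ z₂' := by
        rintro rfl
        exact hne (by rw [h1])
      obtain ⟨h, hh, hz⟩ := h₂.separates z₂ z₂' h2
      exact ⟨_, snd_mem_prodOrder H₁ H₂ hh, hz⟩
    · obtain ⟨h, hh, hz⟩ := h₁.separates z₁ z₁' h1
      exact ⟨_, fst_mem_prodOrder H₁ H₂ hh, hz⟩
  · -- comultiplication
    have hle : prodOrder H₁ H₂ ≤ comulSub (prodOrder H₁ H₂) := by
      refine sup_le ?_ ?_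
      · rintro _ ⟨h, hh, rfl⟩
        obtain ⟨n, a, b, ha, hb, hab⟩ := h₁.comul_mem h hh
        exact ⟨n, fun i z => a i z.1, fun i z => b i z.1,
          fun i => fst_mem_prodOrder H₁ H₂ (ha i), fun i => fst_mem_prodOrder H₁ H₂ (hb i),
          fun z z' => hab z.1 z'.1⟩
      · rintro _ ⟨h, hh, rfl⟩
        obtain ⟨n, a, b, ha, hb, hab⟩ := h₂.comul_mem h hh
        exact ⟨n, fun i z => a i z.2, fun i z => b i z.2,
          fun i => snd_mem_prodOrder H₁ H₂ (ha i), fun i => snd_mem_prodOrder H₁ H₂ (hb i),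
          fun z z' => hab z.2 z'.2⟩
    exact fun h hh => hle hh

end orders

/-- **FF-E (product)**: Hopf models pass to products. -/
theorem productModel : ProductModelStatement := by
  intro ℓ _ Z₁ Z₂ _ _ _ _ _ _ hm₁ hm₂
  obtain ⟨H₁, hH₁⟩ := Fermat.Agent.H34.exists_concreteOrder_of_model (ℓ := ℓ)
    (fun (σ : GQ) (z : Z₁) => σ • z) (⊤ : AddSubgroup Z₁) (fun _ _ _ => AddSubgroup.mem_top _) hm₁
  obtain ⟨H₂, hH₂⟩ := Fermat.Agent.H34.exists_concreteOrder_of_model (ℓ := ℓ)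
    (fun (σ : GQ) (z : Z₂) => σ • z) (⊤ : AddSubgroup Z₂) (fun _ _ _ => AddSubgroup.mem_top _) hm₂
  have hP := prod_concrete _ _ hH₁ hH₂
  letI : MulAction GQ ((⊤ : AddSubgroup Z₁) × (⊤ : AddSubgroup Z₂)) :=
    { smul := fun σ z => (⟨σ • (z.1 : Z₁), AddSubgroup.mem_top _⟩,
        ⟨σ • (z.2 : Z₂), AddSubgroup.mem_top _⟩)
      one_smul := fun z => Prod.ext (Subtype.ext (one_smul GQ (z.1 : Z₁)))
        (Subtype.ext (one_smul GQ (z.2 : Z₂)))
      mul_smul := fun σ τ z => Prod.ext (Subtype.ext (mul_smul σ τ (z.1 : Z₁)))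
        (Subtype.ext (mul_smul σ τ (z.2 : Z₂))) }
  have hmod := concreteOrderStatement ℓ ((⊤ : AddSubgroup Z₁) × (⊤ : AddSubgroup Z₂)) _ hP
  exact HasHopfModel.congr
    ((AddSubgroup.topEquiv : (⊤ : AddSubgroup Z₁) ≃+ Z₁).prodCongr
      (AddSubgroup.topEquiv : (⊤ : AddSubgroup Z₂) ≃+ Z₂))
    (fun σ z => rfl) hmod

/-- A subsingleton group has a Hopf model. -/
theorem trivialModel (ℓ : ℕ) [Fact ℓ.Prime] (Z : Type) [AddCommGroup Z] [Subsingleton Z]
    [MulAction GQ Z] : HasHopfModel ℓ Z (fun (σ : GQ) (z : Z) => σ • z) := by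
  haveI : Finite Z := Finite.of_subsingleton
  refine concreteOrderStatement ℓ Z ⊥ (IsConcreteHopfOrder.of_comul _ _ ?_ ?_ ?_ ?_)
  · rintro h hh σ z
    obtain ⟨r, rfl⟩ := Algebra.mem_bot.mp hh
    show algebraMap (Zl ℓ) Qb r = σ (algebraMap (Zl ℓ) Qb r)
    rw [galois_algebraMap_zl]
  · exact Subalgebra.fg_bot_toSubmodule
  · intro z z' hne
    exact absurd (Subsingleton.elim z z') hne
  · rintro h hh
    obtain ⟨r, rfl⟩ := Algebra.mem_bot.mp hh
    refine ⟨1, fun _ => algebraMap (Zl ℓ) (Z → Qb) r, fun _ => 1,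
      fun _ => Subalgebra.algebraMap_mem _ r, fun _ => Subalgebra.one_mem _, fun z z' => ?_⟩
    simp

/-- `(Fin (r + 1) → Z) ≃+ Z × (Fin r → Z)`. -/
def piFinSuccAddEquiv (Z : Type) [AddCommGroup Z] (r : ℕ) :
    (Z × (Fin r → Z)) ≃+ (Fin (r + 1) → Z) where
  toEquiv := Fin.consEquiv (fun _ : Fin (r + 1) => Z)
  map_add' x y := funext <| Fin.cases rfl (by simp)

theorem piFinSuccAddEquiv_apply (Z : Type) [AddCommGroup Z] (r : ℕ) (x : Z × (Fin r → Z)) :
    piFinSuccAddEquiv Z r x = Fin.cons x.1 x.2 := rfl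

/-- **FF-E (powers)**: Hopf models pass to finite powers. -/
theorem powerModel : PowerModelStatement := by
  intro ℓ _ Z _ _ _ hm r
  induction r with
  | zero => exact trivialModel ℓ (Fin 0 → Z)
  | succ r ih =>
    have hprod := productModel ℓ Z (Fin r → Z) hm ih
    refine HasHopfModel.congr (piFinSuccAddEquiv Z r) (fun σ z => ?_) hprod
    obtain ⟨a, f⟩ := z
    funext i
    refine Fin.cases ?_ (fun j => ?_) i
    · rfl
    · rfl

end Fermat.Agent.H57.FF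

end
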