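import Mathlib
import Fermat.Agent.H57.FF.ProdModel
import Fermat.Agent.H72.FF.FlatInterfaces
import Fermat.Agent.H14.FFF.Interfaces

/-!
# P-FF, block (F6) : products and powers of Hopf models in the shapes of the two interfaces

* `prodModel72 : Fermat.Agent.H72.FF.ProdModelStatement`
* `powModel72 : Fermat.Agent.H72.FF.PowModelStatement`
* `powerModel14 : Fermat.Agent.H14.FFF.PowerModelStatement`
-/

set_option autoImplicit false
set_option linter.unusedSectionVars false

noncomputable section

namespace Fermat.Agent.H57.FF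

open Fermat.Agent.H10.FF

/-- **FF-F6 (products)** in the shape of `Fermat.Agent.H72.FF`. -/
theorem prodModel72 : Fermat.Agent.H72.FF.ProdModelStatement := by
  intro ℓ _ Z₁ Z₂ _ _ _ _ _ _ h₁ h₂
  exact productModel ℓ Z₁ Z₂ h₁ h₂

/-- **FF-F6' (powers)** in the shape of `Fermat.Agent.H72.FF`. -/
theorem powModel72 : Fermat.Agent.H72.FF.PowModelStatement := by
  intro ℓ _ Z _ _ _ r h
  exact powerModel ℓ Z h r

/-- Reindexing of a power along an equivalence of index types. -/
def piReindexAddEquiv (Z : Type) [AddCommGroup Z] {ι κ : Type} (e : ι ≃ κ) :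
    (κ → Z) ≃+ (ι → Z) where
  toFun f := fun i => f (e i)
  invFun g := fun k => g (e.symm k)
  left_inv f := by
    funext k
    simp
  right_inv g := by
    funext i
    simp
  map_add' _ _ := rfl

/-- **FF-E (finite powers)** in the shape of `Fermat.Agent.H14.FFF`. -/
theorem powerModel14 : Fermat.Agent.H14.FFF.PowerModelStatement := by
  intro ℓ _ Z _ _ _ ι _ h
  obtain ⟨r, ⟨e⟩⟩ := Finite.exists_equiv_fin ι
  exact HasHopfModel.congr (piReindexAddEquiv Z e) (fun σ z => rfl) (powerModel ℓ Z h r)

end Fermat.Agent.H57.FF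

end
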