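import Fermat.Agent.H72.FF.Interfaces
import Fermat.Agent.H18.RedArch

/-!
# P-FF, sub-lemma (C1) of FF-C / FF-D: the Cramer closure lemma   (helper57)

`A` a valuation subring of `ℚ̄` over `ℓ`, `I` its inertia group, `R = unrInt A`.
`Z` a finite set with maps `act σ : Z → Z`, surjective for `σ ∈ I`.
`Hu` a subring of `Z → ℚ̄` containing the constants of `R`, `A`-valued, `I`-equivariant and
separating the points of `Z`.

* `cramer_one` : there is `M` such that every `I`-equivariant function with values in `ℓ ^ M A`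
  lies in `Hu`.
* `cramer_two` : there is `M` such that every `I`-equivariant function `F` on `Z × Z` with values
  in `ℓ ^ M A` is of the form `∑ i, a i z * b i z'` with `a i, b i ∈ Hu`.
-/

set_option autoImplicit false
set_option linter.style.haveILetI false
set_option linter.unusedSectionVars false

noncomputable section

namespace Fermat.Agent.H57.FF

open Fermat.Agent.H10.FF Fermat.Agent.H72.FF

/-! ## Lagrange interpolation -/

section Lagrange

variable {k : Type*} [Field k] {Z : Type*} [Finite Z]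

/-- the subalgebra generated by a point-separating set of functions on a finite set is
everything -/
theorem adjoin_eq_top_of_separates (S : Set (Z → k))
    (hsep : ∀ z z' : Z, z ≠ z' → ∃ h ∈ S, h z ≠ h z') : Algebra.adjoin k S = ⊤ := by
  classical
  haveI := Fintype.ofFinite Z
  set T := Algebra.adjoin k S with hT
  -- the separating functions, normalised
  have hg : ∀ P P' : Z, P ≠ P' → ∃ g ∈ T, g P = 1 ∧ g P' = 0 := by
    intro P P' hPP'
    obtain ⟨h, hh, hne⟩ := hsep P P' hPP'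
    have hne' : h P - h P' ≠ 0 := sub_ne_zero.mpr hne
    refine ⟨(h P - h P')⁻¹ • (h - algebraMap k (Z → k) (h P')), ?_, ?_, ?_⟩
    · exact T.smul_mem (T.sub_mem (Algebra.subset_adjoin hh) (T.algebraMap_mem _)) _
    · simp [Pi.smul_apply, inv_mul_cancel₀ hne']
    · simp [Pi.smul_apply]
  choose! g hgT hg1 hg0 using hg
  have hδ : ∀ P : Z, (Pi.single P (1 : k) : Z → k) ∈ T := by
    intro P
    have h1 : (Pi.single P (1 : k) : Z → k) = ∏ P' ∈ Finset.univ.erase P, g P P' := by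
      funext Q
      rw [Finset.prod_apply]
      by_cases hQ : Q = P
      · subst hQ
        rw [Pi.single_eq_same]
        symm
        refine Finset.prod_eq_one fun P' hP' => ?_
        exact hg1 Q P' (Finset.ne_of_mem_erase hP').symm
      · rw [Pi.single_eq_of_ne hQ]
        symm
        refine Finset.prod_eq_zero (Finset.mem_erase.mpr ⟨hQ, Finset.mem_univ Q⟩) ?_
        exact hg0 P Q (fun h => hQ h.symm)
    rw [h1]
    exact T.prod_mem fun P' hP' => hgT P P' (Finset.ne_of_mem_erase hP').symm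
  rw [eq_top_iff]
  intro f _
  have hf : f = ∑ P : Z, f P • (Pi.single P (1 : k) : Z → k) := by
    funext Q
    rw [Finset.sum_apply, Finset.sum_eq_single Q]
    · simp
    · intro P _ hPQ
      simp [Pi.single_eq_of_ne hPQ.symm]
    · intro h
      exact absurd (Finset.mem_univ Q) h
  rw [hf]
  exact T.sum_mem fun P _ => T.smul_mem (hδ P) _

/-- the span of a point-separating subring of functions on a finite set is everything -/
theorem span_eq_top_of_separates (Hu : Subring (Z → k))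
    (hsep : ∀ z z' : Z, z ≠ z' → ∃ h ∈ Hu, h z ≠ h z') :
    Submodule.span k (Hu : Set (Z → k)) = ⊤ := by
  have h1 := adjoin_eq_top_of_separates (k := k) (Hu : Set (Z → k)) hsep
  have h2 := Algebra.adjoin_eq_span k (Hu : Set (Z → k))
  have h3 : (Submonoid.closure (Hu : Set (Z → k)) : Set (Z → k)) = (Hu : Set (Z → k)) := by
    have : Submonoid.closure (Hu : Set (Z → k)) = Hu.toSubmonoid :=
      Submonoid.closure_eq Hu.toSubmonoid
    rw [this]
    rfl
  rw [h3, h1] at h2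
  rw [← h2]
  rfl

end Lagrange

/-! ## Rank one -/

section Rank

theorem natCast_mem_of_liesOver {ℓ : ℕ} (A : ValuationSubring Qb) (hA : A.LiesOverPrime ℓ) :
    ((ℓ : ℕ) : Qb) ∈ A :=
  (ValuationSubring.mem_nonunits_iff_exists_mem_maximalIdeal.mp hA).1

/-- **rank one**: every element of `ℚ̄` has a bounded `ℓ`-denominator with respect to `A` -/
theorem exists_pow_mul_mem {ℓ : ℕ} (hℓ : ℓ.Prime) (A : ValuationSubring Qb)
    (hA : A.LiesOverPrime ℓ) (q : Qb) :
    ∃ M : ℕ, ∀ M' : ℕ, M ≤ M' → ((ℓ : ℕ) : Qb) ^ M' * q ∈ A := by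
  have hℓA := natCast_mem_of_liesOver A hA
  by_cases hq : q ∈ A
  · exact ⟨0, fun M' _ => A.mul_mem _ _ (pow_mem hℓA M') hq⟩
  · have hqi : q⁻¹ ∈ A := (A.mem_or_inv_mem q).resolve_left hq
    have hq0 : q ≠ 0 := fun h => hq (h ▸ A.zero_mem)
    have hb : (⟨q⁻¹, hqi⟩ : A) ≠ 0 := fun h => inv_ne_zero hq0 (congrArg Subtype.val h)
    obtain ⟨e, c, hc⟩ := Fermat.Agent.H18.rv_dvd_pow_prime A hℓ hA
      Fermat.Agent.H18.rv_isAlgebraic_int_algebraicClosure hb
    have hc' : ((ℓ : ℕ) : Qb) ^ e = q⁻¹ * (c : Qb) := by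
      have := congrArg (Subtype.val : A → Qb) hc
      simpa using this
    have he : ((ℓ : ℕ) : Qb) ^ e * q = (c : Qb) := by
      rw [hc', mul_comm q⁻¹, mul_assoc, inv_mul_cancel₀ hq0, mul_one]
    refine ⟨e, fun M' hM' => ?_⟩
    obtain ⟨d, rfl⟩ := Nat.exists_eq_add_of_le hM'
    rw [pow_add, mul_comm (((ℓ : ℕ) : Qb) ^ e), mul_assoc, he]
    exact A.mul_mem _ _ (pow_mem hℓA d) c.2

/-- a common bound for finitely many elements -/
theorem exists_pow_mul_mem_finite {ℓ : ℕ} (hℓ : ℓ.Prime) (A : ValuationSubring Qb)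
    (hA : A.LiesOverPrime ℓ) {ι : Type*} [Finite ι] (q : ι → Qb) :
    ∃ M : ℕ, ∀ i, ((ℓ : ℕ) : Qb) ^ M * q i ∈ A := by
  classical
  haveI := Fintype.ofFinite ι
  choose M hM using fun i => exists_pow_mul_mem hℓ A hA (q i)
  exact ⟨Finset.univ.sup M, fun i => hM i _ (Finset.le_sup (Finset.mem_univ i))⟩

end Rank

/-! ## The Cramer closure lemma -/

section Cramer

variable {ℓ : ℕ} (hℓ : ℓ.Prime) (A : ValuationSubring Qb) (hA : A.LiesOverPrime ℓ)
variable {Z : Type} [Finite Z] (act : GQ → Z → Z)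
  (hact : ∀ σ ∈ A.inertiaSubgroupIn ℚ, Function.Surjective (act σ))
  (Hu : Subring (Z → Qb))
  (hconst : ∀ c ∈ unrInt A, (fun _ : Z => c) ∈ Hu)
  (hint : ∀ h ∈ Hu, ∀ z : Z, h z ∈ A)
  (hequiv : ∀ h ∈ Hu, ∀ σ ∈ A.inertiaSubgroupIn ℚ, ∀ z : Z, h (act σ z) = σ (h z))
  (hsep : ∀ z z' : Z, z ≠ z' → ∃ h ∈ Hu, h z ≠ h z')

include hℓ hA hact hconst hint hequiv hsep in
/-- **Cramer closure, one variable**: `Hu` contains every inertia-equivariant function with
values in `ℓ ^ M A`, for `M` large. -/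
theorem cramer_one : ∃ M : ℕ, ∀ f : Z → Qb,
    (∀ σ ∈ A.inertiaSubgroupIn ℚ, ∀ z : Z, f (act σ z) = σ (f z)) →
    (∀ z : Z, ∃ a ∈ A, f z = ((ℓ : ℕ) : Qb) ^ M * a) → f ∈ Hu := by
  classical
  haveI := Fintype.ofFinite Z
  -- a basis of the space of all functions inside `Hu`
  obtain ⟨b, hbHu, hbspan, hbli⟩ := exists_linearIndependent Qb (Hu : Set (Z → Qb))
  rw [span_eq_top_of_separates Hu hsep] at hbspan
  haveI : Finite ↥b := hbli.finite
  haveI := Fintype.ofFinite ↥b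
  set Bs : Module.Basis ↥b Qb (Z → Qb) := Module.Basis.mk hbli (by
    rw [Subtype.range_coe_subtype, Set.ofPred_mem_eq, hbspan]) with hBs
  have hBsj : ∀ j : ↥b, Bs j = (j : Z → Qb) := fun j => by rw [hBs, Module.Basis.mk_apply]
  -- the coefficients of the indicator functions have bounded denominators
  obtain ⟨M, hM⟩ := exists_pow_mul_mem_finite hℓ A hA
    (fun Pj : Z × ↥b => Bs.repr (Pi.single Pj.1 (1 : Qb)) Pj.2)
  refine ⟨M, fun f hf hval => ?_⟩
  choose α hαA hα using hval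
  have hfsum : f = ∑ P : Z, f P • (Pi.single P (1 : Qb) : Z → Qb) := by
    funext Q
    rw [Finset.sum_apply, Finset.sum_eq_single Q]
    · simp
    · intro P _ hPQ
      simp [Pi.single_eq_of_ne hPQ.symm]
    · intro h
      exact absurd (Finset.mem_univ Q) h
  -- the coefficients of `f`
  have hc : ∀ j : ↥b, Bs.repr f j =
      ∑ P : Z, α P * (((ℓ : ℕ) : Qb) ^ M * Bs.repr (Pi.single P (1 : Qb)) j) := by
    intro j
    conv_lhs => rw [hfsum]
    rw [map_sum, Finsupp.finsetSum_apply]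
    refine Finset.sum_congr rfl fun P _ => ?_
    rw [map_smul, Finsupp.smul_apply, smul_eq_mul, hα P]
    ring
  have hcA : ∀ j : ↥b, Bs.repr f j ∈ A := by
    intro j
    rw [hc j]
    exact A.toSubring.sum_mem fun P _ => A.mul_mem _ _ (hαA P) (hM (P, j))
  have hfrepr : f = ∑ j : ↥b, Bs.repr f j • (j : Z → Qb) := by
    conv_lhs => rw [← Bs.sum_repr f]
    refine Finset.sum_congr rfl fun j _ => ?_
    rw [hBsj]
  have hcI : ∀ j : ↥b, ∀ σ ∈ A.inertiaSubgroupIn ℚ, σ (Bs.repr f j) = Bs.repr f j := by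
    intro j σ hσ
    have h1 : f = ∑ i : ↥b, (fun i => σ (Bs.repr f i)) i • Bs i := by
      funext Q
      obtain ⟨P, rfl⟩ := hact σ hσ Q
      rw [hf σ hσ P, Finset.sum_apply]
      have h2 : f P = ∑ i : ↥b, Bs.repr f i * (i : Z → Qb) P := by
        conv_lhs => rw [hfrepr]
        rw [Finset.sum_apply]
        rfl
      rw [h2, map_sum]
      refine Finset.sum_congr rfl fun i _ => ?_
      rw [map_mul, Pi.smul_apply, smul_eq_mul, hBsj, hequiv _ (hbHu i.2) σ hσ P]
    have h3 := congrArg (fun w => Bs.repr w j) h1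
    simp only at h3
    rw [Bs.repr_sum_self] at h3
    exact h3.symm
  rw [hfrepr]
  refine Hu.sum_mem fun j _ => ?_
  have h4 : Bs.repr f j • (j : Z → Qb) = (fun _ : Z => Bs.repr f j) * (j : Z → Qb) := by
    funext Q
    simp [Pi.smul_apply]
  rw [h4]
  exact Hu.mul_mem (hconst _ ⟨hcA j, hcI j⟩) (hbHu j.2)

end Cramer

/-! ## Functions of two variables -/

section Two

variable {Z : Type}

/-- finite sums of products `a(z) b(z')` with `a, b ∈ Hu`, as a subring of `Z × Z → ℚ̄` -/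
def tensorSubring (Hu : Subring (Z → Qb)) : Subring (Z × Z → Qb) where
  carrier := {G | ∃ (ι : Type) (_ : Fintype ι) (a b : ι → Z → Qb),
    (∀ i, a i ∈ Hu) ∧ (∀ i, b i ∈ Hu) ∧ ∀ p : Z × Z, G p = ∑ i, a i p.1 * b i p.2}
  mul_mem' := by
    rintro G G' ⟨ι, _, a, b, ha, hb, hG⟩ ⟨ι', _, a', b', ha', hb', hG'⟩
    refine ⟨ι × ι', inferInstance, fun ij => a ij.1 * a' ij.2, fun ij => b ij.1 * b' ij.2,
      fun ij => Hu.mul_mem (ha _) (ha' _), fun ij => Hu.mul_mem (hb _) (hb' _), fun p => ?_⟩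
    rw [Pi.mul_apply, hG, hG', Finset.sum_mul_sum, Fintype.sum_prod_type]
    refine Finset.sum_congr rfl fun i _ => Finset.sum_congr rfl fun j _ => ?_
    simp only [Pi.mul_apply]
    ring
  one_mem' := ⟨Unit, inferInstance, fun _ => 1, fun _ => 1, fun _ => Hu.one_mem,
    fun _ => Hu.one_mem, fun p => by simp⟩
  add_mem' := by
    rintro G G' ⟨ι, _, a, b, ha, hb, hG⟩ ⟨ι', _, a', b', ha', hb', hG'⟩
    refine ⟨ι ⊕ ι', inferInstance, Sum.elim a a', Sum.elim b b', ?_, ?_, fun p => ?_⟩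
    · rintro (i | i)
      · exact ha i
      · exact ha' i
    · rintro (i | i)
      · exact hb i
      · exact hb' i
    · rw [Pi.add_apply, hG, hG', Fintype.sum_sum_type]
      rfl
  zero_mem' := ⟨Empty, inferInstance, fun i => i.elim, fun i => i.elim, fun i => i.elim,
    fun i => i.elim, fun p => by simp⟩
  neg_mem' := by
    rintro G ⟨ι, _, a, b, ha, hb, hG⟩
    refine ⟨ι, inferInstance, fun i => -a i, b, fun i => Hu.neg_mem (ha i), hb, fun p => ?_⟩
    rw [Pi.neg_apply, hG, ← Finset.sum_neg_distrib]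
    refine Finset.sum_congr rfl fun i _ => ?_
    simp

theorem mem_tensorSubring {Hu : Subring (Z → Qb)} {G : Z × Z → Qb} :
    G ∈ tensorSubring Hu ↔ ∃ (ι : Type) (_ : Fintype ι) (a b : ι → Z → Qb),
      (∀ i, a i ∈ Hu) ∧ (∀ i, b i ∈ Hu) ∧ ∀ p : Z × Z, G p = ∑ i, a i p.1 * b i p.2 := Iff.rfl

/-- an element of `tensorSubring Hu` is a sum indexed by some `Fin n` -/
theorem exists_fin_of_mem_tensorSubring {Hu : Subring (Z → Qb)} {G : Z × Z → Qb}
    (hG : G ∈ tensorSubring Hu) :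
    ∃ (n : ℕ) (a b : Fin n → Z → Qb), (∀ i, a i ∈ Hu) ∧ (∀ i, b i ∈ Hu) ∧
      ∀ z z' : Z, G (z, z') = ∑ i, a i z * b i z' := by
  obtain ⟨ι, _, a, b, ha, hb, hG⟩ := hG
  let e := Fintype.equivFin ι
  refine ⟨Fintype.card ι, fun i => a (e.symm i), fun i => b (e.symm i), fun i => ha _,
    fun i => hb _, fun z z' => ?_⟩
  rw [hG]
  exact (Equiv.sum_comp e.symm (fun i => a i z * b i z')).symm

theorem tensor_mem {Hu : Subring (Z → Qb)} {a b : Z → Qb} (ha : a ∈ Hu) (hb : b ∈ Hu) :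
    (fun p : Z × Z => a p.1 * b p.2) ∈ tensorSubring Hu :=
  ⟨Unit, inferInstance, fun _ => a, fun _ => b, fun _ => ha, fun _ => hb, fun p => by simp⟩

variable {ℓ : ℕ} (hℓ : ℓ.Prime) (A : ValuationSubring Qb) (hA : A.LiesOverPrime ℓ)
variable [Finite Z] (act : GQ → Z → Z)
  (hact : ∀ σ ∈ A.inertiaSubgroupIn ℚ, Function.Surjective (act σ))
  (Hu : Subring (Z → Qb))
  (hconst : ∀ c ∈ unrInt A, (fun _ : Z => c) ∈ Hu)
  (hint : ∀ h ∈ Hu, ∀ z : Z, h z ∈ A)
  (hequiv : ∀ h ∈ Hu, ∀ σ ∈ A.inertiaSubgroupIn ℚ, ∀ z : Z, h (act σ z) = σ (h z))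
  (hsep : ∀ z z' : Z, z ≠ z' → ∃ h ∈ Hu, h z ≠ h z')

include hℓ hA hact hconst hint hequiv hsep in
/-- **Cramer closure, two variables**: every inertia-equivariant function on `Z × Z` with values
in `ℓ ^ M A`, `M` large, is a finite sum of products `a(z) b(z')` with `a, b ∈ Hu`. -/
theorem cramer_two : ∃ M : ℕ, ∀ F : Z → Z → Qb,
    (∀ σ ∈ A.inertiaSubgroupIn ℚ, ∀ z z' : Z, F (act σ z) (act σ z') = σ (F z z')) →
    (∀ z z' : Z, ∃ a ∈ A, F z z' = ((ℓ : ℕ) : Qb) ^ M * a) →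
    ∃ (n : ℕ) (a b : Fin n → Z → Qb), (∀ i, a i ∈ Hu) ∧ (∀ i, b i ∈ Hu) ∧
      ∀ z z' : Z, F z z' = ∑ i, a i z * b i z' := by
  classical
  obtain ⟨M, hM⟩ := cramer_one hℓ A hA (Z := Z × Z) (fun σ p => (act σ p.1, act σ p.2))
    (fun σ hσ p => by
      obtain ⟨z, hz⟩ := hact σ hσ p.1
      obtain ⟨z', hz'⟩ := hact σ hσ p.2
      exact ⟨(z, z'), Prod.ext hz hz'⟩)
    (tensorSubring Hu)
    (fun c hc => by
      have := tensor_mem (hconst c hc) Hu.one_mem
      convert this using 1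
      funext p
      simp)
    (fun G hG p => by
      obtain ⟨ι, _, a, b, ha, hb, hG⟩ := hG
      rw [hG]
      exact A.toSubring.sum_mem fun i _ => A.mul_mem _ _ (hint _ (ha i) _) (hint _ (hb i) _))
    (fun G hG σ hσ p => by
      obtain ⟨ι, _, a, b, ha, hb, hG⟩ := hG
      rw [hG, hG, map_sum]
      refine Finset.sum_congr rfl fun i _ => ?_
      rw [map_mul, hequiv _ (ha i) σ hσ, hequiv _ (hb i) σ hσ])
    (fun p p' hpp' => by
      by_cases h1 : p.1 = p'.1
      · have h2 : p.2 ≠ p'.2 := fun h2 => hpp' (Prod.ext h1 h2)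
        obtain ⟨h, hh, hne⟩ := hsep _ _ h2
        refine ⟨_, tensor_mem Hu.one_mem hh, ?_⟩
        simpa using hne
      · obtain ⟨h, hh, hne⟩ := hsep _ _ h1
        refine ⟨_, tensor_mem hh Hu.one_mem, ?_⟩
        simpa using hne)
  refine ⟨M, fun F hF hval => ?_⟩
  have hmem := hM (fun p => F p.1 p.2) (fun σ hσ p => hF σ hσ p.1 p.2)
    (fun p => hval p.1 p.2)
  exact exists_fin_of_mem_tensorSubring hmem

end Two

end Fermat.Agent.H57.FF
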